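import Mathlib

/-!
Abstract Kummer descent (second case) in a principal ideal domain `R` containing a primitive
`p`-th root of unity `z` such that `z - 1` is prime with residue ring of cardinality `p`.
-/

set_option autoImplicit false

namespace Fermat.Agent.S10.V.FLTCaseII

open Finset Polynomial

set_option linter.unusedSectionVars false

variable {R : Type*} [CommRing R] [IsDomain R]

/-- The hypotheses on the ring needed for the descent. -/
structure Hyp (p : ℕ) (z : R) : Prop where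
  prime_p : p.Prime
  odd_p : p ≠ 2
  prim : IsPrimitiveRoot z p
  prime_lam : Prime (z - 1)
  card_quot : Nat.card (R ⧸ Ideal.span {z - 1}) = p
  p_dvd : (p : R) ∣ (z - 1) ^ (p - 1)
  lam_dvd_p : (z - 1) ∣ (p : R)
  pow_int : ∀ α : R, ∃ n : ℤ, (p : R) ∣ α ^ p - n
  kummer : ∀ (u : Rˣ) (n : ℤ), (p : R) ∣ (u : R) - n → ∃ v : Rˣ, u = v ^ p

variable {p : ℕ} {z : R}

namespace Hyp

variable (H : Hyp p z)
include H

lemma isUnit_z : IsUnit z := H.prim.isUnit H.prime_p.ne_zero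

lemma two_lt : 2 < p := lt_of_le_of_ne H.prime_p.two_le (Ne.symm H.odd_p)

lemma odd : Odd p := H.prime_p.odd_of_ne_two H.odd_p

lemma one_mem : (1 : R) ∈ nthRootsFinset p (1 : R) := by
  rw [mem_nthRootsFinset H.prime_p.pos]; simp

lemma z_pow_mem (i : ℕ) : z ^ i ∈ nthRootsFinset p (1 : R) := by
  rw [mem_nthRootsFinset H.prime_p.pos, ← pow_mul, mul_comm, pow_mul, H.prim.pow_eq_one, one_pow]

lemma geom_not_dvd {k : ℕ} (hk0 : 0 < k) (hkp : k < p) : ¬ (z - 1) ∣ ∑ j ∈ range k, z ^ j := by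
  intro h
  have hu : IsUnit (∑ j ∈ range k, z ^ j) :=
    H.prim.geom_sum_isUnit H.prime_p.two_le
      ((Nat.coprime_of_lt_prime (Nat.pos_iff_ne_zero.mp hk0) hkp H.prime_p).symm)
  exact H.prime_lam.not_isUnit (isUnit_of_dvd_unit h hu)

/-- Pigeonhole: among `w + g_i y`, `i < p`, one is divisible by `z - 1`. -/
lemma pigeon (w y : R) (hy : ¬ (z - 1) ∣ y) :
    ∃ i < p, (z - 1) ∣ w + (∑ j ∈ range i, z ^ j) * y := by
  classical
  have hfin : Finite (R ⧸ Ideal.span {z - 1}) :=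
    Nat.finite_of_card_ne_zero (by rw [H.card_quot]; exact H.prime_p.ne_zero)
  let φ : Fin p → R ⧸ Ideal.span {z - 1} := fun i =>
    Ideal.Quotient.mk _ (w + (∑ j ∈ range (i : ℕ), z ^ j) * y)
  have key : ∀ i j : ℕ, i < j → j < p →
      ¬ (z - 1) ∣ ((∑ k ∈ range j, z ^ k) - (∑ k ∈ range i, z ^ k)) * y := by
    intro i j hij hjp hdvd
    have hsplit : (∑ k ∈ range j, z ^ k) - (∑ k ∈ range i, z ^ k)
        = z ^ i * ∑ k ∈ range (j - i), z ^ k := by
      have : j = i + (j - i) := by omega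
      conv_lhs => rw [this, Finset.sum_range_add]
      rw [add_sub_cancel_left, Finset.mul_sum]
      exact Finset.sum_congr rfl fun k _ => pow_add z i k
    rw [hsplit] at hdvd
    rcases H.prime_lam.dvd_or_dvd hdvd with h | h
    · rcases H.prime_lam.dvd_or_dvd h with h | h
      · exact H.prime_lam.not_isUnit (isUnit_of_dvd_unit h (H.isUnit_z.pow i))
      · exact H.geom_not_dvd (by omega) (by omega) h
    · exact hy h
  have hinj : Function.Injective φ := by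
    intro a b hab
    by_contra hne
    have hab' : (z - 1) ∣ ((∑ k ∈ range (a : ℕ), z ^ k) - (∑ k ∈ range (b : ℕ), z ^ k)) * y := by
      have := (Ideal.Quotient.eq (I := Ideal.span {z - 1})).mp hab
      rw [Ideal.mem_span_singleton] at this
      convert this using 1
      ring
    rcases lt_or_gt_of_ne (fun h => hne (Fin.ext h) : (a : ℕ) ≠ b) with h | h
    · apply key a b h b.2
      rw [← dvd_neg]
      convert hab' using 1
      ring
    · exact key b a h a.2 hab'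
  have hcard : Nat.card (Fin p) = Nat.card (R ⧸ Ideal.span {z - 1}) := by
    rw [H.card_quot]; simp
  have hsurj : Function.Surjective φ :=
    ((Nat.bijective_iff_injective_and_card φ).mpr ⟨hinj, hcard⟩).2
  obtain ⟨i, hi⟩ := hsurj 0
  refine ⟨i, i.2, ?_⟩
  rw [← Ideal.mem_span_singleton]
  exact Ideal.Quotient.eq_zero_iff_mem.mp hi

end Hyp

/-- A solution of the generalised equation with `λ`-adic valuation of the right side `p * m`. -/
structure Sol (p : ℕ) (z : R) (m : ℕ) (x y w : R) (u : Rˣ) : Prop where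
  hx : ¬ (z - 1) ∣ x
  hy : ¬ (z - 1) ∣ y
  hw : ¬ (z - 1) ∣ w
  cop : IsCoprime x y
  eq : x ^ p + y ^ p = u * ((z - 1) ^ m * w) ^ p

namespace Hyp

variable (H : Hyp p z)
include H

lemma factor (x y : R) : x ^ p + y ^ p = ∏ η ∈ nthRootsFinset p (1 : R), (x + η * y) :=
  H.prim.pow_add_pow_eq_prod_add_mul x y H.odd

/-- One may assume `λ ^ 2 ∣ x + y`. -/
lemma normalize {m : ℕ} {x y w : R} {u : Rˣ} (S : Sol p z m x y w u) (hm : 1 ≤ m) :
    ∃ y', Sol p z m x y' w u ∧ (z - 1) ^ 2 ∣ x + y' := by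
  have h1 : (z - 1) ∣ x ^ p + y ^ p := by
    rw [S.eq, mul_pow, ← pow_mul]
    exact Dvd.dvd.mul_left (Dvd.dvd.mul_right
      (dvd_pow_self _ (Nat.mul_ne_zero (by omega) H.prime_p.ne_zero)) _) _
  rw [H.factor] at h1
  obtain ⟨η, hη, hdvd⟩ := H.prime_lam.exists_mem_finset_dvd h1
  have h2 : (z - 1) ∣ x + y := by
    have h3 : (z - 1) ∣ (1 - η) * y :=
      Dvd.dvd.mul_right (H.prim.sub_one_dvd_sub H.prime_p H.one_mem hη) _
    have := dvd_add hdvd h3
    convert this using 1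
    ring
  obtain ⟨w0, hw0⟩ := h2
  obtain ⟨i, -, hi⟩ := H.pigeon w0 y S.hy
  refine ⟨z ^ i * y, ⟨S.hx, ?_, S.hw, ?_, ?_⟩, ?_⟩
  · intro h
    rcases H.prime_lam.dvd_or_dvd h with h | h
    · exact H.prime_lam.not_isUnit (isUnit_of_dvd_unit h (H.isUnit_z.pow i))
    · exact S.hy h
  · exact (isCoprime_mul_unit_left_right (H.isUnit_z.pow i) _ _).2 S.cop
  · rw [mul_pow, ← pow_mul, mul_comm i p, pow_mul, H.prim.pow_eq_one, one_pow, one_mul, S.eq]
  · obtain ⟨t, ht⟩ := hi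
    refine ⟨t, ?_⟩
    have hg : z ^ i - 1 = (z - 1) * ∑ j ∈ range i, z ^ j := (mul_geom_sum z i).symm
    calc x + z ^ i * y = (x + y) + (z ^ i - 1) * y := by ring
      _ = (z - 1) * (w0 + (∑ j ∈ range i, z ^ j) * y) := by rw [hw0, hg]; ring
      _ = (z - 1) ^ 2 * t := by rw [ht]; ring

/-- Two divisors, prime to `λ`, of two distinct factors are coprime. -/
lemma cop_aux [IsPrincipalIdealRing R] {x y r s η₁ η₂ : R} (hxy : IsCoprime x y)
    (h₁ : η₁ ∈ nthRootsFinset p (1 : R)) (h₂ : η₂ ∈ nthRootsFinset p (1 : R)) (hne : η₁ ≠ η₂)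
    (hr : r ∣ x + η₁ * y) (hs : s ∣ x + η₂ * y) (hlr : ¬ (z - 1) ∣ r) (hls : ¬ (z - 1) ∣ s) :
    IsCoprime r s := by
  refine isCoprime_of_prime_dvd (fun h => hls (by simp [h.2])) fun q hq hqr hqs => ?_
  have hass : Associated (z - 1) (η₁ - η₂) :=
    H.prim.nthRootsFinset_pairwise_associated_sub_one_sub_of_prime H.prime_p h₁ h₂ hne
  have e1 : q ∣ (η₁ - η₂) * y := by
    have := dvd_sub (hqr.trans hr) (hqs.trans hs)
    convert this using 1
    ring
  have e2 : q ∣ (η₁ - η₂) * x := by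
    have := dvd_sub ((hqs.trans hs).mul_left η₁) ((hqr.trans hr).mul_left η₂)
    convert this using 1
    ring
  by_cases hql : q ∣ η₁ - η₂
  · have hql' : q ∣ z - 1 := hass.symm.dvd_iff_dvd_right.mp hql
    exact hlr ((hq.associated_of_dvd H.prime_lam hql').symm.dvd.trans hqr)
  · have hy' := (hq.dvd_or_dvd e1).resolve_left hql
    have hx' := (hq.dvd_or_dvd e2).resolve_left hql
    exact hq.not_isUnit (hxy.isUnit_of_dvd' hx' hy')

lemma isUnit_one_add : IsUnit (1 + z) := by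
  have h := H.prim.geom_sum_isUnit H.prime_p.two_le
    ((Nat.coprime_primes Nat.prime_two H.prime_p).mpr (Ne.symm H.odd_p))
  simpa [Finset.sum_range_succ] using h

/-- The descent step. -/
lemma descent [IsPrincipalIdealRing R] {m : ℕ} {x y w : R} {u : Rˣ} (S : Sol p z m x y w u)
    (hm : 1 ≤ m) (hxy : (z - 1) ^ 2 ∣ x + y) :
    2 ≤ m ∧ ∃ x' y' w' u', Sol p z (m - 1) x' y' w' u' := by
  classical
  have hp0 : 0 < p := H.prime_p.pos
  have hl0 : z - 1 ≠ 0 := H.prime_lam.ne_zero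
  have ha : ∀ η ∈ (nthRootsFinset p (1 : R)).erase 1,
      ∃ a, x + η * y = (z - 1) * a ∧ ¬ (z - 1) ∣ a := by
    intro η hη
    obtain ⟨hne, hηT⟩ := Finset.mem_erase.mp hη
    obtain ⟨v, hv⟩ := H.prim.nthRootsFinset_pairwise_associated_sub_one_sub_of_prime
      H.prime_p hηT H.one_mem hne
    obtain ⟨t, ht⟩ := hxy
    refine ⟨(z - 1) * t + v * y, ?_, ?_⟩
    · calc x + η * y = (x + y) + (η - 1) * y := by ring
        _ = (z - 1) * ((z - 1) * t + v * y) := by rw [ht, ← hv]; ring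
    · intro h
      have h' : (z - 1) ∣ v * y := (dvd_add_right (dvd_mul_right (z - 1) t)).mp h
      exact S.hy ((H.prime_lam.dvd_or_dvd h').resolve_left
        (fun h'' => H.prime_lam.not_isUnit (isUnit_of_dvd_unit h'' v.isUnit)))
  choose! a ha1 ha2 using ha
  have hlA : ¬ (z - 1) ∣ ∏ η ∈ (nthRootsFinset p (1 : R)).erase 1, a η :=
    H.prime_lam.not_dvd_finsetProd ha2
  have hcard : ((nthRootsFinset p (1 : R)).erase 1).card = p - 1 := by
    rw [Finset.card_erase_of_mem H.one_mem, H.prim.card_nthRootsFinset]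
  have hprod : (x + y) * ((z - 1) ^ (p - 1) * ∏ η ∈ (nthRootsFinset p (1 : R)).erase 1, a η)
      = u * ((z - 1) ^ m * w) ^ p := by
    rw [← S.eq, H.factor, ← Finset.mul_prod_erase _ _ H.one_mem, one_mul]
    congr 1
    rw [Finset.prod_congr rfl ha1, Finset.prod_mul_distrib, Finset.prod_const, hcard]
  have hpm : m * p = (p * (m - 1) + 1) + (p - 1) := by
    obtain ⟨m', rfl⟩ : ∃ m', m = m' + 1 := ⟨m - 1, by omega⟩
    obtain ⟨p', rfl⟩ : ∃ p', p = p' + 1 := ⟨p - 1, by omega⟩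
    simp only [Nat.add_sub_cancel]
    ring
  have hprod2 : (x + y) * (∏ η ∈ (nthRootsFinset p (1 : R)).erase 1, a η)
      = (z - 1) ^ (p * (m - 1) + 1) * (u * w ^ p) := by
    apply mul_left_cancel₀ (pow_ne_zero (p - 1) hl0)
    calc (z - 1) ^ (p - 1) * ((x + y) * ∏ η ∈ (nthRootsFinset p (1 : R)).erase 1, a η)
        = (x + y) * ((z - 1) ^ (p - 1) * ∏ η ∈ (nthRootsFinset p (1 : R)).erase 1, a η) := by ring
      _ = u * ((z - 1) ^ m * w) ^ p := hprod
      _ = (z - 1) ^ (p - 1) * ((z - 1) ^ (p * (m - 1) + 1) * (u * w ^ p)) := by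
          rw [mul_pow, ← pow_mul, hpm, pow_add]; ring
  obtain ⟨a1, ha1'⟩ : (z - 1) ^ (p * (m - 1) + 1) ∣ x + y :=
    H.prime_lam.pow_dvd_of_dvd_mul_right _ hlA ⟨_, hprod2⟩
  have hprod3 : a1 * (∏ η ∈ (nthRootsFinset p (1 : R)).erase 1, a η) = u * w ^ p := by
    apply mul_left_cancel₀ (pow_ne_zero (p * (m - 1) + 1) hl0)
    rw [← hprod2, ha1']; ring
  have hla1 : ¬ (z - 1) ∣ a1 := by
    intro h
    have h' : (z - 1) ∣ u * w ^ p := hprod3 ▸ h.mul_right _
    rcases H.prime_lam.dvd_or_dvd h' with h'' | h''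
    · exact H.prime_lam.not_isUnit (isUnit_of_dvd_unit h'' u.isUnit)
    · exact S.hw (H.prime_lam.dvd_of_dvd_pow h'')
  have hm2 : 2 ≤ m := by
    by_contra hlt
    have hm1 : m = 1 := by omega
    rw [hm1, Nat.sub_self, mul_zero, zero_add, pow_one] at ha1'
    obtain ⟨t, ht⟩ := hxy
    apply hla1
    refine ⟨t, mul_left_cancel₀ hl0 ?_⟩
    rw [← ha1', ht]; ring
  refine ⟨hm2, ?_⟩
  -- the function of all cofactors
  let b : R → R := fun η => if η = 1 then a1 else a η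
  have hb1 : b 1 = a1 := if_pos rfl
  have hbne : ∀ η, η ≠ 1 → b η = a η := fun η h => if_neg h
  have hb_dvd : ∀ η ∈ nthRootsFinset p (1 : R), b η ∣ x + η * y := by
    intro η hη
    by_cases h : η = 1
    · subst h; rw [hb1, one_mul, ha1']; exact dvd_mul_left _ _
    · rw [hbne η h, ha1 η (Finset.mem_erase.mpr ⟨h, hη⟩)]; exact dvd_mul_left _ _
  have hb_l : ∀ η ∈ nthRootsFinset p (1 : R), ¬ (z - 1) ∣ b η := by
    intro η hη
    by_cases h : η = 1
    · subst h; rw [hb1]; exact hla1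
    · rw [hbne η h]; exact ha2 η (Finset.mem_erase.mpr ⟨h, hη⟩)
  have hb_prod : ∏ η ∈ nthRootsFinset p (1 : R), b η = u * w ^ p := by
    rw [← Finset.mul_prod_erase _ _ H.one_mem, hb1, ← hprod3]
    congr 1
    exact Finset.prod_congr rfl fun η hη => hbne η (Finset.mem_erase.mp hη).1
  have hb_cop : ∀ η₁ ∈ nthRootsFinset p (1 : R), ∀ η₂ ∈ nthRootsFinset p (1 : R), η₁ ≠ η₂ →
      IsCoprime (b η₁) (b η₂) := fun η₁ h₁ η₂ h₂ hne =>
    H.cop_aux S.cop h₁ h₂ hne (hb_dvd η₁ h₁) (hb_dvd η₂ h₂) (hb_l η₁ h₁) (hb_l η₂ h₂)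
  have hb_pow : ∀ η ∈ nthRootsFinset p (1 : R), ∃ ρ, Associated (ρ ^ p) (b η) := by
    intro η hη
    have hc : IsCoprime (b η) (∏ ξ ∈ (nthRootsFinset p (1 : R)).erase η, b ξ) :=
      IsCoprime.prod_right fun ξ hξ =>
        hb_cop η hη ξ (Finset.mem_erase.mp hξ).2 (Finset.mem_erase.mp hξ).1.symm
    refine exists_associated_pow_of_associated_pow_mul (c := w) hc ?_
    rw [Finset.mul_prod_erase _ _ hη, hb_prod]
    exact ⟨u, mul_comm _ _⟩
  -- the three roots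
  have hz1 : z ≠ 1 := H.prim.ne_one H.prime_p.one_lt
  have hzi1 : z ^ (p - 1) ≠ 1 :=
    H.prim.pow_ne_one_of_pos_of_lt (by have := H.two_lt; omega) (by omega)
  have hzzi : z * z ^ (p - 1) = 1 := by
    rw [← pow_succ', Nat.sub_add_cancel hp0, H.prim.pow_eq_one]
  have hzne : z ≠ z ^ (p - 1) := by
    intro h
    have h2 : z ^ 2 = 1 := by rw [pow_two]; nth_rewrite 2 [h]; exact hzzi
    exact H.prim.pow_ne_one_of_pos_of_lt (by norm_num) H.two_lt h2
  have hzmem : z ∈ nthRootsFinset p (1 : R) := by simpa using H.z_pow_mem 1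
  have hzimem : z ^ (p - 1) ∈ nthRootsFinset p (1 : R) := H.z_pow_mem (p - 1)
  obtain ⟨ρ0, ε0, h0⟩ := hb_pow 1 H.one_mem
  obtain ⟨ρ1, ε1, h1⟩ := hb_pow z hzmem
  obtain ⟨ρ2, ε2, h2⟩ := hb_pow (z ^ (p - 1)) hzimem
  rw [hb1] at h0
  rw [hbne z hz1] at h1
  rw [hbne _ hzi1] at h2
  have e1 := ha1 z (Finset.mem_erase.mpr ⟨hz1, hzmem⟩)
  have e2 := ha1 (z ^ (p - 1)) (Finset.mem_erase.mpr ⟨hzi1, hzimem⟩)
  have rel : a z + z * a (z ^ (p - 1)) = (1 + z) * (z - 1) ^ (p * (m - 1)) * a1 := by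
    apply mul_left_cancel₀ hl0
    calc (z - 1) * (a z + z * a (z ^ (p - 1)))
        = (z - 1) * a z + z * ((z - 1) * a (z ^ (p - 1))) := by ring
      _ = (x + z * y) + z * (x + z ^ (p - 1) * y) := by rw [e1, e2]
      _ = (1 + z) * (x + y) + (z * z ^ (p - 1) - 1) * y := by ring
      _ = (1 + z) * (x + y) := by rw [hzzi]; ring
      _ = (z - 1) * ((1 + z) * (z - 1) ^ (p * (m - 1)) * a1) := by rw [ha1', pow_succ]; ring
  have hl1 : ¬ (z - 1) ∣ ρ1 := fun h => ha2 z (Finset.mem_erase.mpr ⟨hz1, hzmem⟩)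
    (h1 ▸ Dvd.dvd.mul_right (dvd_pow h H.prime_p.ne_zero) _)
  have hl2 : ¬ (z - 1) ∣ ρ2 := fun h => ha2 _ (Finset.mem_erase.mpr ⟨hzi1, hzimem⟩)
    (h2 ▸ Dvd.dvd.mul_right (dvd_pow h H.prime_p.ne_zero) _)
  have hl0' : ¬ (z - 1) ∣ ρ0 := fun h => hla1
    (h0 ▸ Dvd.dvd.mul_right (dvd_pow h H.prime_p.ne_zero) _)
  have hcop12 : IsCoprime ρ1 ρ2 := by
    have hc := hb_cop z hzmem _ hzimem hzne
    rw [hbne z hz1, hbne _ hzi1, ← h1, ← h2, isCoprime_mul_unit_right_left ε1.isUnit,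
      isCoprime_mul_unit_right_right ε2.isUnit, IsCoprime.pow_iff hp0 hp0] at hc
    exact hc
  -- the units
  let η4 : Rˣ := H.isUnit_z.unit * ε2 * ε1⁻¹
  let η5 : Rˣ := H.isUnit_one_add.unit * ε0 * ε1⁻¹
  have hη4 : (η4 : R) = z * ε2 * (ε1⁻¹ : Rˣ) := by simp [η4]
  have hη5 : (η5 : R) = (1 + z) * ε0 * (ε1⁻¹ : Rˣ) := by simp [η5]
  have hε : ((ε1⁻¹ : Rˣ) : R) * ε1 = 1 := Units.inv_mul ε1
  have formula : ρ1 ^ p + η4 * ρ2 ^ p = η5 * ((z - 1) ^ (m - 1) * ρ0) ^ p := by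
    rw [hη4, hη5, mul_pow, ← pow_mul, mul_comm (m - 1) p]
    linear_combination (-(ρ1 ^ p)) * hε + ((ε1⁻¹ : Rˣ) : R) * h1 + ((ε1⁻¹ : Rˣ) : R) * rel
      + z * ((ε1⁻¹ : Rˣ) : R) * h2
      - (1 + z) * ((ε1⁻¹ : Rˣ) : R) * (z - 1) ^ (p * (m - 1)) * h0
  have hpdvd : (p : R) ∣ ((z - 1) ^ (m - 1) * ρ0) ^ p := by
    have h3 : (z - 1) ∣ (z - 1) ^ (m - 1) * ρ0 :=
      Dvd.dvd.mul_right (dvd_pow_self _ (by omega)) _
    exact (H.p_dvd.trans (pow_dvd_pow _ (Nat.sub_le p 1))).trans (pow_dvd_pow_of_dvd h3 p)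
  obtain ⟨n1, hn1⟩ := H.pow_int ρ1
  obtain ⟨n2, hn2⟩ := H.pow_int ρ2
  have hsum : (p : R) ∣ (n1 : R) + η4 * n2 := by
    have h3 : (p : R) ∣ ρ1 ^ p + η4 * ρ2 ^ p := formula ▸ hpdvd.mul_left _
    have h4 := dvd_sub (dvd_sub h3 hn1) (hn2.mul_left (η4 : R))
    convert h4 using 1
    ring
  have hn2' : ¬ (p : ℤ) ∣ n2 := by
    intro h
    have h3 : (p : R) ∣ (n2 : R) := by
      have := Int.cast_dvd_cast (α := R) _ _ h
      simpa using this
    have h4 : (p : R) ∣ ρ2 ^ p := by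
      have := dvd_add hn2 h3
      simpa using this
    exact hl2 (H.prime_lam.dvd_of_dvd_pow (H.lam_dvd_p.trans h4))
  obtain ⟨s, t, hst⟩ : IsCoprime (p : ℤ) n2 :=
    (Nat.prime_iff_prime_int.mp H.prime_p).coprime_iff_not_dvd.mpr hn2'
  have hst' : (s : R) * p + t * n2 = 1 := by
    have := congrArg (Int.cast : ℤ → R) hst
    push_cast at this
    exact this
  obtain ⟨v, hv⟩ := H.kummer η4 (-(t * n1)) (by
    obtain ⟨c, hc⟩ := hsum
    refine ⟨s * η4 + t * c, ?_⟩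
    push_cast
    linear_combination (-(η4 : R)) * hst' + (t : R) * hc)
  refine ⟨ρ1, v * ρ2, ρ0, η5, hl1, ?_, hl0', ?_, ?_⟩
  · intro h
    rcases H.prime_lam.dvd_or_dvd h with h' | h'
    · exact H.prime_lam.not_isUnit (isUnit_of_dvd_unit h' v.isUnit)
    · exact hl2 h'
  · exact (isCoprime_mul_unit_left_right v.isUnit _ _).2 hcop12
  · rw [mul_pow, ← Units.val_pow_eq_pow_val, ← hv]
    exact formula

/-- There is no solution of the generalised equation. -/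
theorem no_sol [IsPrincipalIdealRing R] : ∀ (m : ℕ) (x y w : R) (u : Rˣ), 1 ≤ m →
    ¬ Sol p z m x y w u := by
  intro m
  induction m with
  | zero => intro x y w u h; omega
  | succ m ih =>
    intro x y w u _ S
    obtain ⟨y', S', hy'⟩ := H.normalize S (by omega)
    obtain ⟨hm2, x'', y'', w'', u'', S''⟩ := H.descent S' (by omega) hy'
    exact ih x'' y'' w'' u'' (by omega) (by simpa using S'')

/-- Final abstract form: no solution with `λ ∣ c`, `c ≠ 0`. -/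
theorem no_solution [IsPrincipalIdealRing R] (x y c : R) (u : Rˣ) (hc : c ≠ 0)
    (hx : ¬ (z - 1) ∣ x) (hy : ¬ (z - 1) ∣ y) (hcd : (z - 1) ∣ c) (hxy : IsCoprime x y) :
    x ^ p + y ^ p ≠ u * c ^ p := by
  intro h
  have hfin : FiniteMultiplicity (z - 1) c := .of_not_isUnit H.prime_lam.not_isUnit hc
  obtain ⟨w, hw, hlw⟩ := hfin.exists_eq_pow_mul_and_not_dvd
  have hm : 1 ≤ multiplicity (z - 1) c := hfin.le_multiplicity_of_pow_dvd (by simpa using hcd)
  exact H.no_sol _ x y w u hm ⟨hx, hy, hlw, hxy, by rw [← hw]; exact h⟩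

end Hyp

end Fermat.Agent.S10.V.FLTCaseII
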